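import Mathlib

/-!
# S59 / TW, DICT-K (helper126): the abstract "killer word" lemma (Mathlib only)

`k` a field, `S : ι → End_k W` a commuting family, `μ : ι → k` a system of scalars.

* `wordOp126 S L` : the operator `∏ g(S i)` over the letters `(i, g)` of the word `L`;
  `wordVal126 μ L` : the scalar `∏ g(μ i)`;
* `exists_killer126` : a finite-dimensional `S`-stable subspace `U` WITHOUT nonzero common
  eigenvector for `μ` is killed by a word `L` with `wordVal126 μ L ≠ 0`;
* `aeval_intertwine126`, `wordOp_intertwine126` : semilinear intertwiners intertwine words;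
* `exists_eigen_of_sum126` : **the dictionary, abstract form**.  If an eigenvector `v ≠ 0` of a
  family `T` on `Y` (eigenvalues `μ`) is a finite sum of images `p j (w j)` of
  finite-dimensional spaces `W j` under `σ j`-semilinear intertwiners `p j`
  (`p j ∘ S j i = T i ∘ p j`, the `S j i` commuting), then some `W j` contains a nonzero common
  eigenvector with eigenvalues `τ j (μ i)` (`σ j ∘ τ j = id`).  No injectivity of the `p j`, no
  commutativity of the `T i` is needed.
-/

set_option autoImplicit false

noncomputable section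

namespace Fermat.Agent.S59.TW.H126

open Polynomial

variable {k : Type*} [Field k] {ι : Type*}

section Words

variable {W : Type*} [AddCommGroup W] [Module k W]

/-- The operator `∏ g(S i)` over the letters `(i, g)` of the word `L`. -/
def wordOp126 (S : ι → Module.End k W) (L : List (ι × k[X])) : Module.End k W :=
  (L.map fun x => aeval (S x.1) x.2).prod

/-- The scalar `∏ g(μ i)` over the letters `(i, g)` of the word `L`. -/
def wordVal126 (μ : ι → k) (L : List (ι × k[X])) : k :=
  (L.map fun x => x.2.eval (μ x.1)).prod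

@[simp] theorem wordOp126_nil (S : ι → Module.End k W) : wordOp126 S [] = 1 := rfl

@[simp] theorem wordOp126_cons (S : ι → Module.End k W) (x : ι × k[X]) (L : List (ι × k[X])) :
    wordOp126 S (x :: L) = aeval (S x.1) x.2 * wordOp126 S L := by
  simp [wordOp126]

@[simp] theorem wordOp126_append (S : ι → Module.End k W) (L L' : List (ι × k[X])) :
    wordOp126 S (L ++ L') = wordOp126 S L * wordOp126 S L' := by
  simp [wordOp126]

@[simp] theorem wordVal126_nil (μ : ι → k) : wordVal126 μ [] = 1 := rfl

@[simp] theorem wordVal126_cons (μ : ι → k) (x : ι × k[X]) (L : List (ι × k[X])) :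
    wordVal126 μ (x :: L) = x.2.eval (μ x.1) * wordVal126 μ L := by
  simp [wordVal126]

@[simp] theorem wordVal126_append (μ : ι → k) (L L' : List (ι × k[X])) :
    wordVal126 μ (L ++ L') = wordVal126 μ L * wordVal126 μ L' := by
  simp [wordVal126]

/-- A polynomial in an operator acts on an eigenvector through the value at the eigenvalue. -/
theorem aeval_eigen126 (T : Module.End k W) (μ : k) (v : W) (hv : T v = μ • v) (g : k[X]) :
    aeval T g v = g.eval μ • v := by
  by_cases h0 : v = 0
  · subst h0; simp
  · exact Module.End.aeval_apply_of_hasEigenvector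
      ⟨Module.End.mem_eigenspace_iff.mpr hv, h0⟩

/-- A word acts on a common eigenvector through its value. -/
theorem wordOp_eigen126 (T : ι → Module.End k W) (μ : ι → k) (v : W)
    (hv : ∀ i, T i v = μ i • v) (L : List (ι × k[X])) :
    wordOp126 T L v = wordVal126 μ L • v := by
  induction L with
  | nil => simp
  | cons x L ih =>
    rw [wordOp126_cons, wordVal126_cons, Module.End.mul_apply, ih, map_smul,
      aeval_eigen126 (T x.1) (μ x.1) v (hv x.1), smul_smul, mul_comm]

end Words

section Intertwine

variable {W : Type*} [AddCommGroup W] [Module k W] {Y : Type*} [AddCommGroup Y] [Module k Y]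

/-- A `σ`-semilinear intertwiner of `S` and `T` intertwines `g(S)` and `g^σ(T)`. -/
theorem aeval_intertwine126 (S : Module.End k W) (T : Module.End k Y) (σ : k →+* k)
    (p : W →+ Y) (hp : ∀ (a : k) (w : W), p (a • w) = σ a • p w)
    (hint : ∀ w : W, p (S w) = T (p w)) (g : k[X]) (w : W) :
    p (aeval S g w) = aeval T (g.map σ) (p w) := by
  have hpow : ∀ (n : ℕ) (w : W), p ((S ^ n) w) = (T ^ n) (p w) := by
    intro n
    induction n with
    | zero => intro w; simp
    | succ n ih =>
      intro w
      rw [pow_succ, pow_succ, Module.End.mul_apply, Module.End.mul_apply, ih, hint]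
  induction g using Polynomial.induction_on' with
  | add g₁ g₂ h₁ h₂ =>
    rw [map_add, LinearMap.add_apply, map_add, h₁, h₂, Polynomial.map_add, map_add,
      LinearMap.add_apply]
  | monomial n a =>
    rw [Polynomial.map_monomial, aeval_monomial, aeval_monomial, Module.End.mul_apply,
      Module.End.mul_apply, Module.algebraMap_end_apply, Module.algebraMap_end_apply, hp, hpow]

/-- A `σ`-semilinear intertwiner of the families `S` and `T` intertwines words. -/
theorem wordOp_intertwine126 (S : ι → Module.End k W) (T : ι → Module.End k Y) (σ : k →+* k)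
    (p : W →+ Y) (hp : ∀ (a : k) (w : W), p (a • w) = σ a • p w)
    (hint : ∀ i (w : W), p (S i w) = T i (p w)) (L : List (ι × k[X])) (w : W) :
    p (wordOp126 S L w) = wordOp126 T (L.map fun x => (x.1, x.2.map σ)) (p w) := by
  induction L generalizing w with
  | nil => simp
  | cons x L ih =>
    rw [wordOp126_cons, Module.End.mul_apply, List.map_cons, wordOp126_cons,
      Module.End.mul_apply, aeval_intertwine126 (S x.1) (T x.1) σ p hp (hint x.1), ih]

/-- The value of the `σ`-twisted word. -/
theorem wordVal_map126 (σ τ : k →+* k) (hστ : ∀ a, σ (τ a) = a) (μ : ι → k)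
    (L : List (ι × k[X])) :
    wordVal126 μ (L.map fun x => (x.1, x.2.map σ)) = σ (wordVal126 (fun i => τ (μ i)) L) := by
  induction L with
  | nil => simp
  | cons x L ih =>
    rw [List.map_cons, wordVal126_cons, wordVal126_cons, ih, map_mul]
    congr 1
    show (x.2.map σ).eval (μ x.1) = σ (x.2.eval (τ (μ x.1)))
    conv_lhs => rw [← hστ (μ x.1)]
    rw [Polynomial.eval_map, Polynomial.eval₂_at_apply]

end Intertwine

section Killer

variable {W : Type*} [AddCommGroup W] [Module k W]

/-- An operator commuting with `B` commutes with every polynomial in `B`. -/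
theorem commute_aeval126 (A B : Module.End k W) (h : Commute A B) (g : k[X]) :
    Commute A (aeval B g) := by
  induction g using Polynomial.induction_on' with
  | add g₁ g₂ h₁ h₂ => rw [map_add]; exact h₁.add_right h₂
  | monomial n a =>
    rw [aeval_monomial]
    have h0 : Commute A (algebraMap k (Module.End k W) a) := (Algebra.commutes a A).symm
    exact h0.mul_right (h.pow_right n)

/-- An operator commuting with the family commutes with every word. -/
theorem commute_wordOp126 (S : ι → Module.End k W) (A : Module.End k W)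
    (h : ∀ i, Commute A (S i)) (L : List (ι × k[X])) : Commute A (wordOp126 S L) := by
  induction L with
  | nil => exact Commute.one_right A
  | cons x L ih =>
    rw [wordOp126_cons]
    exact (commute_aeval126 A (S x.1) (h x.1) x.2).mul_right ih

/-- A stable subspace is stable under polynomials. -/
theorem aeval_mem126 (A : Module.End k W) (U : Submodule k W) (hU : ∀ u ∈ U, A u ∈ U)
    (g : k[X]) : ∀ u ∈ U, aeval A g u ∈ U := by
  have hpow : ∀ (n : ℕ), ∀ u ∈ U, (A ^ n) u ∈ U := by
    intro n
    induction n with
    | zero => intro u hu; simpa using hu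
    | succ n ih =>
      intro u hu
      rw [pow_succ, Module.End.mul_apply]
      exact ih _ (hU u hu)
  induction g using Polynomial.induction_on' with
  | add g₁ g₂ h₁ h₂ =>
    intro u hu
    rw [map_add, LinearMap.add_apply]
    exact U.add_mem (h₁ u hu) (h₂ u hu)
  | monomial n a =>
    intro u hu
    rw [aeval_monomial, Module.End.mul_apply, Module.algebraMap_end_apply]
    exact U.smul_mem a (hpow n u hu)

/-- A stable subspace is stable under words. -/
theorem wordOp_mem126 (S : ι → Module.End k W) (U : Submodule k W)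
    (hU : ∀ i, ∀ u ∈ U, S i u ∈ U) (L : List (ι × k[X])) :
    ∀ u ∈ U, wordOp126 S L u ∈ U := by
  induction L with
  | nil => intro u hu; simpa using hu
  | cons x L ih =>
    intro u hu
    rw [wordOp126_cons, Module.End.mul_apply]
    exact aeval_mem126 (S x.1) U (hU x.1) x.2 _ (ih u hu)

/-- **The killer word.**  A finite-dimensional subspace `U`, stable under the commuting family
`S`, without nonzero common eigenvector for the system `μ`, is killed by a word `L` whose value
at `μ` is nonzero. -/
theorem exists_killer_aux126 (S : ι → Module.End k W) (hcomm : ∀ i j, Commute (S i) (S j))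
    (μ : ι → k) (n : ℕ) : ∀ U : Submodule k W, FiniteDimensional k U → Module.finrank k U = n →
    (∀ i, ∀ u ∈ U, S i u ∈ U) → (∀ u ∈ U, (∀ i, S i u = μ i • u) → u = 0) →
    ∃ L : List (ι × k[X]), wordVal126 μ L ≠ 0 ∧ ∀ u ∈ U, wordOp126 S L u = 0 := by
  induction n using Nat.strong_induction_on with
  | _ n ih =>
  intro U hfd hn hinv hno
  by_cases hU : U = ⊥
  · refine ⟨[], by simp, fun u hu => ?_⟩
    rw [hU, Submodule.mem_bot] at hu
    simp [hu]
  obtain ⟨u₀, hu₀, hu₀0⟩ := Submodule.exists_mem_ne_zero_of_ne_bot hU
  have hex : ∃ i, S i u₀ ≠ μ i • u₀ := by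
    by_contra hcon
    push Not at hcon
    exact hu₀0 (hno u₀ hu₀ hcon)
  obtain ⟨i, hi⟩ := hex
  set N : Module.End k W := S i - algebraMap k (Module.End k W) (μ i) with hN
  have hNapp : ∀ w, N w = S i w - μ i • w := fun w => by
    rw [hN, LinearMap.sub_apply, Module.algebraMap_end_apply]
  have hNU : ∀ u ∈ U, N u ∈ U := fun u hu => by
    rw [hNapp]; exact U.sub_mem (hinv i u hu) (U.smul_mem _ hu)
  have hNcomm : ∀ j, Commute N (S j) := fun j =>
    (hcomm i j).sub_left (Algebra.commutes (μ i) (S j))
  by_cases hA : ∀ u ∈ U, N u = 0 → u = 0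
  · -- `μ i` is not an eigenvalue of `S i` on `U`: the minimal polynomial does it
    let R : Module.End k U := (S i).restrict (hinv i)
    refine ⟨[(i, minpoly k R)], ?_, ?_⟩
    · simp only [wordVal126_cons, wordVal126_nil, mul_one]
      intro hroot
      have hev : R.HasEigenvalue (μ i) := Module.End.hasEigenvalue_of_isRoot hroot
      obtain ⟨w, hw⟩ := hev.exists_hasEigenvector
      have hw1 : R w = μ i • w := Module.End.mem_eigenspace_iff.mp hw.1
      have hw2 : S i (w : W) = μ i • (w : W) := congrArg Subtype.val hw1
      have hw0 : (w : W) = 0 := hA w w.2 (by rw [hNapp, hw2, sub_self])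
      exact hw.2 (Subtype.ext hw0)
    · intro u hu
      simp only [wordOp126_cons, wordOp126_nil, mul_one]
      have h1 := aeval_intertwine126 R (S i) (RingHom.id k) U.subtype.toAddMonoidHom
        (fun a w => by simp) (fun w => rfl) (minpoly k R) ⟨u, hu⟩
      rw [Polynomial.map_id, minpoly.aeval] at h1
      simpa using h1.symm
  · -- split `U` along `N`
    push Not at hA
    obtain ⟨u₁, hu₁, hNu₁, hu₁0⟩ := hA
    have hU'lt : U ⊓ LinearMap.ker N < U := by
      refine lt_of_le_of_ne inf_le_left fun heq => ?_
      have h00 : u₀ ∈ U ⊓ LinearMap.ker N := by rw [heq]; exact hu₀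
      have h0 : N u₀ = 0 := LinearMap.mem_ker.mp h00.2
      rw [hNapp, sub_eq_zero] at h0
      exact hi h0
    have hU''le : U.map N ≤ U := by
      rintro _ ⟨u, hu, rfl⟩
      exact hNU u hu
    have hfd' : FiniteDimensional k (U ⊓ LinearMap.ker N : Submodule k W) :=
      Submodule.finiteDimensional_of_le inf_le_left
    have hfd'' : FiniteDimensional k (U.map N : Submodule k W) :=
      Submodule.finiteDimensional_of_le hU''le
    have hfin' : Module.finrank k (U ⊓ LinearMap.ker N : Submodule k W) < n :=
      hn ▸ Submodule.finrank_lt_finrank_of_lt hU'lt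
    have hfin'' : Module.finrank k (U.map N : Submodule k W) < n := by
      have hrn := LinearMap.finrank_range_add_finrank_ker (N.domRestrict U)
      rw [LinearMap.range_domRestrict] at hrn
      have hpos : 0 < Module.finrank k (LinearMap.ker (N.domRestrict U)) := by
        rw [Module.finrank_pos_iff_exists_ne_zero]
        refine ⟨⟨⟨u₁, hu₁⟩, ?_⟩, ?_⟩
        · rw [LinearMap.mem_ker]; exact hNu₁
        · intro h
          apply hu₁0
          have h2 := congrArg (fun x : LinearMap.ker (N.domRestrict U) => ((x : U) : W)) h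
          simpa using h2
      omega
    obtain ⟨L', hL'v, hL'k⟩ := ih _ hfin' (U ⊓ LinearMap.ker N) hfd' rfl
      (fun j u hu => ⟨hinv j u hu.1, by
        have h1 : N (S j u) = S j (N u) := congrArg (fun f => f u) (hNcomm j).eq
        show S j u ∈ LinearMap.ker N
        rw [LinearMap.mem_ker, h1, LinearMap.mem_ker.mp hu.2, map_zero]⟩)
      (fun u hu => hno u hu.1)
    obtain ⟨L'', hL''v, hL''k⟩ := ih _ hfin'' (U.map N) hfd'' rfl
      (fun j u hu => by
        obtain ⟨u', hu', rfl⟩ := hu
        have h1 : N (S j u') = S j (N u') := congrArg (fun f => f u') (hNcomm j).eq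
        rw [← h1]
        exact Submodule.mem_map_of_mem (hinv j u' hu'))
      (fun u hu => hno u (hU''le hu))
    refine ⟨L' ++ L'', ?_, ?_⟩
    · rw [wordVal126_append]
      exact mul_ne_zero hL'v hL''v
    · intro u hu
      rw [wordOp126_append, Module.End.mul_apply]
      refine hL'k _ ⟨wordOp_mem126 S U hinv L'' u hu, ?_⟩
      have h1 : N (wordOp126 S L'' u) = wordOp126 S L'' (N u) :=
        congrArg (fun f => f u) (commute_wordOp126 S N hNcomm L'').eq
      show wordOp126 S L'' u ∈ LinearMap.ker N
      rw [LinearMap.mem_ker, h1]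
      exact hL''k _ (Submodule.mem_map_of_mem hu)

/-- **The killer word** on a finite-dimensional space. -/
theorem exists_killer126 [FiniteDimensional k W] (S : ι → Module.End k W)
    (hcomm : ∀ i j, Commute (S i) (S j)) (μ : ι → k)
    (hno : ∀ u : W, (∀ i, S i u = μ i • u) → u = 0) :
    ∃ L : List (ι × k[X]), wordVal126 μ L ≠ 0 ∧ ∀ u : W, wordOp126 S L u = 0 := by
  obtain ⟨L, hL, hk⟩ := exists_killer_aux126 S hcomm μ _ ⊤ inferInstance rfl
    (fun _ _ _ => Submodule.mem_top) (fun u _ => hno u)
  exact ⟨L, hL, fun u => hk u Submodule.mem_top⟩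

end Killer

section Main

variable {W : Type*} [AddCommGroup W] [Module k W] {Y : Type*} [AddCommGroup Y] [Module k Y]

/-- Words in `T` preserve the image of a semilinear intertwiner (`σ ∘ τ = id`). -/
theorem wordOp_range126 (S : ι → Module.End k W) (T : ι → Module.End k Y) (σ τ : k →+* k)
    (hστ : ∀ a, σ (τ a) = a) (p : W →+ Y) (hp : ∀ (a : k) (w : W), p (a • w) = σ a • p w)
    (hint : ∀ i (w : W), p (S i w) = T i (p w)) (L : List (ι × k[X])) (w : W) :
    wordOp126 T L (p w) = p (wordOp126 S (L.map fun x => (x.1, x.2.map τ)) w) := by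
  rw [wordOp_intertwine126 S T σ p hp hint, List.map_map]
  have hid : σ.comp τ = RingHom.id k := RingHom.ext hστ
  have hL : L.map ((fun x : ι × k[X] => (x.1, x.2.map σ)) ∘ fun x => (x.1, x.2.map τ)) = L := by
    conv_rhs => rw [← List.map_id L]
    refine List.map_congr_left fun x _ => ?_
    show (x.1, (x.2.map τ).map σ) = x
    rw [Polynomial.map_map, hid, Polynomial.map_id]
  rw [hL]

end Main

section Dict

variable {Y : Type*} [AddCommGroup Y] [Module k Y]

/-- **The dictionary, abstract form.**  An eigenvector `v ≠ 0` of the family `T` (eigenvalues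
`μ`) which is a finite sum of images of finite-dimensional spaces `W j` under `σ j`-semilinear
intertwiners forces a nonzero common eigenvector in some `W j`, with eigenvalues `τ j (μ i)`. -/
theorem exists_eigen_of_sum126 (T : ι → Module.End k Y) (μ : ι → k)
    {J : Type*} [Fintype J] (W : J → Type*) [∀ j, AddCommGroup (W j)] [∀ j, Module k (W j)]
    [∀ j, FiniteDimensional k (W j)]
    (S : ∀ j, ι → Module.End k (W j)) (hS : ∀ j i i', Commute (S j i) (S j i'))
    (σ τ : J → (k →+* k)) (hστ : ∀ j a, σ j (τ j a) = a)
    (p : ∀ j, W j →+ Y) (hp : ∀ j (a : k) (w : W j), p j (a • w) = σ j a • p j w)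
    (hint : ∀ j i (w : W j), p j (S j i w) = T i (p j w))
    (v : Y) (hv : v ≠ 0) (hev : ∀ i, T i v = μ i • v)
    (w : ∀ j, W j) (hsum : v = ∑ j, p j (w j)) :
    ∃ j, ∃ w' : W j, w' ≠ 0 ∧ ∀ i, S j i w' = τ j (μ i) • w' := by
  classical
  by_contra hcon
  push Not at hcon
  have hno : ∀ j (u : W j), (∀ i, S j i u = τ j (μ i) • u) → u = 0 := by
    intro j u hu
    by_contra h0
    obtain ⟨i, hi⟩ := hcon j u h0
    exact hi (hu i)
  choose L hLv hLk using fun j =>
    exists_killer126 (S j) (hS j) (fun i => τ j (μ i)) (hno j)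
  have hBv : ∀ j, wordVal126 μ ((L j).map fun x => (x.1, x.2.map (σ j))) ≠ 0 := by
    intro j
    rw [wordVal_map126 (σ j) (τ j) (hστ j)]
    exact (map_ne_zero (σ j)).mpr (hLv j)
  have hBk : ∀ j (u : W j),
      wordOp126 T ((L j).map fun x => (x.1, x.2.map (σ j))) (p j u) = 0 := by
    intro j u
    rw [← wordOp_intertwine126 (S j) T (σ j) (p j) (hp j) (hint j), hLk, map_zero]
  have hbig : ∀ l : List J, ∃ Lw : List (ι × k[X]), wordVal126 μ Lw ≠ 0 ∧
      ∀ j ∈ l, ∀ u : W j, wordOp126 T Lw (p j u) = 0 := by
    intro l
    induction l with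
    | nil => exact ⟨[], by simp, fun j hj => absurd hj (by simp)⟩
    | cons j₀ l ih =>
      obtain ⟨Lw, hLwv, hLwk⟩ := ih
      refine ⟨((L j₀).map fun x => (x.1, x.2.map (σ j₀))) ++ Lw, ?_, ?_⟩
      · rw [wordVal126_append]
        exact mul_ne_zero (hBv j₀) hLwv
      · intro j hj u
        rw [wordOp126_append, Module.End.mul_apply]
        rcases List.mem_cons.mp hj with rfl | hj'
        · rw [wordOp_range126 (S j) T (σ j) (τ j) (hστ j) (p j) (hp j) (hint j) Lw u]
          exact hBk j _
        · rw [hLwk j hj' u, map_zero]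
  obtain ⟨Lw, hLwv, hLwk⟩ := hbig Finset.univ.toList
  have h1 : wordOp126 T Lw v = wordVal126 μ Lw • v := wordOp_eigen126 T μ v hev Lw
  have h2 : wordOp126 T Lw v = 0 := by
    rw [hsum, map_sum]
    exact Finset.sum_eq_zero fun j _ => hLwk j (Finset.mem_toList.mpr (Finset.mem_univ j)) _
  rw [h2] at h1
  rcases smul_eq_zero.mp h1.symm with h | h
  · exact hLwv h
  · exact hv h

end Dict

end Fermat.Agent.S59.TW.H126
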