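import Fermat.Agent.S59.TW.H658.HeckeRel
import Fermat.Agent.S59.TW.H126.DictAbs
import Fermat.Agent.Lib.Newform.H683.FinDim

/-!
# S59 / TW, DICT-K (helper126): the Eichler–Shimura dictionary, eigenvector form over `ℂ`

`Γ₁(M) ≤ K ≤ Γ₀(M)`, `-1 ∈ K`, `M ∣ N'`, `u : ℕ → (ℤ/M)ˣ`, `t_ℓ = ⟨u ℓ⟩ T_ℓ` on `Hom(K, ℂ)`
(`H658.tFam`).  Let `v ≠ 0` be a PARABOLIC class in `Hom(K, ℂ)` with

* `t_ℓ v = lam ℓ • v` for the primes `ℓ ∤ N'`, `ℓ ∉ S`, and
* `⟨d⟩ v = chi d • v` for `d ∈ D ⊆ (ℤ/M)ˣ`.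

Then (`dictK_complex126`) there are a Dirichlet character `χ` modulo `M`, trivial on `K`, a
NONZERO `f` in the nebentypus-`χ` component `H658.nebSub M χ` and `c ∈ {id, conj}` with

* `χ d = c (chi d)` for `d ∈ D`, and
* `χ(u ℓ) T_ℓ f = c (lam ℓ) • f` (`H658.nebT χ hℓ (χ (u ℓ)) f`).

Inputs: Eichler–Shimura SURJECTIVITY (`H658.exists_perG_add_conj_of_isMid`), the nebentypus
decomposition (`H658.exists_nebForm_sum`), the intertwining relations
(`H658.perG_nebForm_nebT`, `H658.perG_diaForm`) and the killer-word lemma of `DictAbs`.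
NO injectivity of the period map is used.  The finite-dimensionality and the commutativity on
the nebentypus components come from a LINEAR embedding hypothesis `EmbLin126` (implied by
`H658.TwistHyp`, `TwistHyp.embLin126`).
-/

set_option autoImplicit false
set_option linter.unusedSectionVars false
set_option linter.unusedVariables false
set_option linter.style.haveILetI false

noncomputable section

namespace Fermat.Agent.S59.TW.H126

open CongruenceSubgroup ModularForm ModularCurve ModularCurve.Period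
open UpperHalfPlane hiding I
open Matrix.SpecialLinearGroup Fermat.Agent.Lib.Newform.H803
open Fermat.Agent.S41.H761 Fermat.Agent.S29.H642
open Fermat.Agent.S59.TW.H653 Fermat.Agent.S59.TW.H564 Fermat.Agent.S59.TW.H658
open scoped Manifold MatrixGroups ModularForm

variable {M : ℕ} {K : Subgroup SL(2, ℤ)}

/-! ## The operators on `Hom(K, ℂ)` as `ℂ`-linear maps -/

theorem smul_eq_comp126 {G : Type*} [AddZeroClass G] (a : ℂ) (φ : G →+ ℂ) :
    a • φ = (AddMonoidHom.mulLeft a).comp φ := rfl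

/-- `t_ℓ = ⟨u ℓ⟩ T_ℓ` as a `ℂ`-linear endomorphism of `Hom(K, ℂ)`. -/
def tEnd126 (hK : IsMid M K) {N' : ℕ} (hMN : M ∣ N') (u : ℕ → (ZMod M)ˣ) {S : Set ℕ}
    (i : GoodPrime N' S) : Module.End ℂ (Additive K →+ ℂ) where
  toFun := tFam hK ℂ hMN u i
  map_add' := map_add _
  map_smul' a φ := by
    rw [smul_eq_comp126, tFam_comp, RingHom.id_apply, smul_eq_comp126]

@[simp] theorem tEnd126_apply (hK : IsMid M K) {N' : ℕ} (hMN : M ∣ N') (u : ℕ → (ZMod M)ˣ)
    {S : Set ℕ} (i : GoodPrime N' S) (φ : Additive K →+ ℂ) :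
    tEnd126 hK hMN u i φ = tFam hK ℂ hMN u i φ := rfl

/-- `⟨d⟩` as a `ℂ`-linear endomorphism of `Hom(K, ℂ)`. -/
def dEnd126 (hK : IsMid M K) (d : (ZMod M)ˣ) : Module.End ℂ (Additive K →+ ℂ) where
  toFun := diamondU hK d
  map_add' := diamondU_add hK d
  map_smul' a φ := rfl

@[simp] theorem dEnd126_apply (hK : IsMid M K) (d : (ZMod M)ˣ) (φ : Additive K →+ ℂ) :
    dEnd126 hK d φ = diamondU hK d φ := rfl

/-! ## The operators on the nebentypus components -/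

/-- `χ(u ℓ) T_ℓ` on the nebentypus-`χ` component, indexed by the good primes. -/
def nebTi126 {N' : ℕ} (hMN : M ∣ N') (u : ℕ → (ZMod M)ˣ) {S : Set ℕ}
    (χ : DirichletCharacter ℂ M) (i : GoodPrime N' S) : Module.End ℂ (nebSub M χ) :=
  haveI : Fact i.1.Prime := ⟨i.2.1⟩
  nebT χ (fun h => i.2.2.1 (h.trans hMN)) (χ ((u i.1 : (ZMod M)ˣ) : ZMod M))

theorem nebTi126_eq {N' : ℕ} (hMN : M ∣ N') (u : ℕ → (ZMod M)ˣ) {S : Set ℕ}
    (χ : DirichletCharacter ℂ M) {ℓ : ℕ} [Fact ℓ.Prime] (hℓ : ¬ ℓ ∣ M)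
    (h : ℓ.Prime ∧ ¬ ℓ ∣ N' ∧ ℓ ∉ S) :
    nebTi126 hMN u χ (⟨ℓ, h⟩ : GoodPrime N' S)
      = nebT χ hℓ (χ ((u ℓ : (ZMod M)ˣ) : ZMod M)) := rfl

/-- **The linear embedding hypothesis**: for every character `χ` trivial on `K` the
nebentypus-`χ` component embeds LINEARLY into `S₂(Γ₀(N'))`, intertwining `χ(u ℓ) T_ℓ` with
`T_ℓ`.  (The linear form of `H658.EmbHyp`.) -/
structure EmbLin126 (K : Subgroup SL(2, ℤ)) (N' : ℕ) (u : ℕ → (ZMod M)ˣ) : Prop where
  dvd : M ∣ N'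
  neg : (-1 : SL(2, ℤ)) ∈ K
  emb : ∀ χ : DirichletCharacter ℂ M, TrivOn K χ →
    ∃ J : nebSub M χ →ₗ[ℂ] CuspForm (Gamma0 N') 2, Function.Injective J ∧
      ∀ (ℓ : ℕ) [Fact ℓ.Prime] (hℓ : ¬ ℓ ∣ M) (hℓN : ¬ ℓ ∣ N') (F : nebSub M χ),
        CuspForm.heckeTLin 2 (Fact.out : ℓ.Prime) hℓN (J F) =
          J (nebT χ hℓ (χ ((u ℓ : (ZMod M)ˣ) : ZMod M)) F)

theorem EmbLin126.embHyp {N' : ℕ} {u : ℕ → (ZMod M)ˣ} (H : EmbLin126 K N' u) :
    EmbHyp K N' u where
  dvd := H.dvd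
  neg := H.neg
  emb := fun χ hχ => by
    obtain ⟨J, hJi, hJ⟩ := H.emb χ hχ
    exact ⟨J.toAddMonoidHom, hJi, hJ⟩

/-- The twist of the nebentypus component, as a linear map. -/
def nebTwistL126 {N' : ℕ} {χ : DirichletCharacter ℂ M} (D : TwistDatum M N' χ) :
    nebSub M χ →ₗ[ℂ] CuspForm (Gamma0 N') 2 where
  toFun := nebTwist D
  map_add' := map_add _
  map_smul' a F := DFunLike.coe_injective <| by
    show twistL 2 D.ψ D.L (a • (F : ℍ → ℂ)) = a • twistL 2 D.ψ D.L (F : ℍ → ℂ)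
    exact twistL_smul (k := 2) (ψ := D.ψ) D.L a (F : ℍ → ℂ)

@[simp] theorem nebTwistL126_apply {N' : ℕ} {χ : DirichletCharacter ℂ M}
    (D : TwistDatum M N' χ) (F : nebSub M χ) : nebTwistL126 D F = nebTwist D F := rfl

theorem _root_.Fermat.Agent.S59.TW.H658.TwistHyp.embLin126 {N' : ℕ} {u : ℕ → (ZMod M)ˣ}
    (H : TwistHyp K N' u) : EmbLin126 K N' u where
  dvd := H.dvd
  neg := H.neg
  emb := fun χ hχ => by
    obtain ⟨D, hD⟩ := H.twist χ hχ
    refine ⟨nebTwistL126 D, nebTwist_injective D, ?_⟩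
    intro ℓ _ hℓ hℓN F
    rw [nebTwistL126_apply, nebTwistL126_apply, heckeTLin_nebTwist D hℓN hℓ F,
      hD ℓ Fact.out hℓN]

/-- Finite-dimensionality of the nebentypus components. -/
theorem EmbLin126.finiteDimensional {N' : ℕ} [NeZero N'] {u : ℕ → (ZMod M)ˣ}
    (H : EmbLin126 K N' u) (χ : DirichletCharacter ℂ M) (hχ : TrivOn K χ) :
    FiniteDimensional ℂ (nebSub M χ) := by
  obtain ⟨J, hJi, -⟩ := H.emb χ hχ
  haveI := Fermat.Agent.Lib.Newform.H683.finiteDimensional_cuspForm N' 2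
  exact FiniteDimensional.of_injective J hJi

/-- Commutativity of the `χ(u ℓ) T_ℓ` on the nebentypus components. -/
theorem EmbLin126.commute {N' : ℕ} {u : ℕ → (ZMod M)ˣ} (H : EmbLin126 K N' u) {S : Set ℕ}
    (χ : DirichletCharacter ℂ M) (hχ : TrivOn K χ) (i i' : GoodPrime N' S) :
    Commute (nebTi126 H.dvd u χ i) (nebTi126 H.dvd u χ i') := by
  obtain ⟨J, hJi, hJ⟩ := H.emb χ hχ
  haveI : Fact i.1.Prime := ⟨i.2.1⟩
  haveI : Fact i'.1.Prime := ⟨i'.2.1⟩
  have hi : ∀ F, J (nebTi126 H.dvd u χ i F) = CuspForm.heckeTLin 2 i.2.1 i.2.2.1 (J F) :=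
    fun F => (hJ i.1 (fun h => i.2.2.1 (h.trans H.dvd)) i.2.2.1 F).symm
  have hi' : ∀ F, J (nebTi126 H.dvd u χ i' F) = CuspForm.heckeTLin 2 i'.2.1 i'.2.2.1 (J F) :=
    fun F => (hJ i'.1 (fun h => i'.2.2.1 (h.trans H.dvd)) i'.2.2.1 F).symm
  refine LinearMap.ext fun F => hJi ?_
  rw [Module.End.mul_apply, Module.End.mul_apply, hi, hi', hi', hi]
  exact congrArg (fun f => f (J F)) (CuspForm.heckeTLin_comm 2 i.2.1 i.2.2.1 i'.2.1 i'.2.2.1).eq

/-! ## The pieces -/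

section Pieces

variable [NeZero M] [K.FiniteIndex]

/-- The period map on the nebentypus-`χ` component. -/
def perNeb126 (hK : IsMid M K) (χ : DirichletCharacter ℂ M) (hχ : TrivOn K χ) :
    nebSub M χ →ₗ[ℂ] (Additive K →+ ℂ) :=
  (perGL K).comp (nebForm hK χ hχ)

@[simp] theorem perNeb126_apply (hK : IsMid M K) (χ : DirichletCharacter ℂ M) (hχ : TrivOn K χ)
    (F : nebSub M χ) : perNeb126 hK χ hχ F = perG (nebForm hK χ hχ F) := rfl

/-- The diamond operators act on the periods of the nebentypus-`χ` component through `χ`. -/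
theorem diamondU_perNeb126 (hK : IsMid M K) (χ : DirichletCharacter ℂ M) (hχ : TrivOn K χ)
    (d : (ZMod M)ˣ) (F : nebSub M χ) :
    diamondU hK d (perNeb126 hK χ hχ F) = χ ((d : (ZMod M)ˣ) : ZMod M) • perNeb126 hK χ hχ F := by
  rw [perNeb126_apply, diamondU_eq hK (dUnit_sg d), ← perG_diaForm, ← perG_smul]
  congr 1
  apply DFunLike.coe_injective
  rw [coe_diaForm, coe_nebForm, F.2.2 _ (sg d).2, chiZ_of_mem, dUnit_sg]
  rfl

/-- `id` and `conj`. -/
def sig126 : Bool → (ℂ →+* ℂ)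
  | false => RingHom.id ℂ
  | true => starRingEnd ℂ

theorem sig126_sig126 (b : Bool) (a : ℂ) : sig126 b (sig126 b a) = a := by
  cases b
  · rfl
  · exact Complex.conj_conj a

theorem sig126_eq (b : Bool) : sig126 b = RingHom.id ℂ ∨ sig126 b = starRingEnd ℂ := by
  cases b
  · exact Or.inl rfl
  · exact Or.inr rfl

/-- The period map and its complex conjugate. -/
def pMap126 (hK : IsMid M K) (χ : DirichletCharacter ℂ M) (hχ : TrivOn K χ) :
    Bool → (nebSub M χ →+ (Additive K →+ ℂ))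
  | false => (perNeb126 hK χ hχ).toAddMonoidHom
  | true => (conjAdd _).comp (perNeb126 hK χ hχ).toAddMonoidHom

theorem pMap126_smul (hK : IsMid M K) (χ : DirichletCharacter ℂ M) (hχ : TrivOn K χ)
    (b : Bool) (a : ℂ) (F : nebSub M χ) :
    pMap126 hK χ hχ b (a • F) = sig126 b a • pMap126 hK χ hχ b F := by
  cases b
  · exact (perNeb126 hK χ hχ).map_smul a F
  · show conjHom (perNeb126 hK χ hχ (a • F))
      = (starRingEnd ℂ) a • conjHom (perNeb126 hK χ hχ F)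
    rw [(perNeb126 hK χ hχ).map_smul a F]
    refine AddMonoidHom.ext fun x => ?_
    simp

theorem pMap126_tEnd (hK : IsMid M K) {N' : ℕ} (hMN : M ∣ N') (u : ℕ → (ZMod M)ˣ) {S : Set ℕ}
    (χ : DirichletCharacter ℂ M) (hχ : TrivOn K χ) (b : Bool) (i : GoodPrime N' S)
    (F : nebSub M χ) :
    pMap126 hK χ hχ b (nebTi126 hMN u χ i F) = tEnd126 hK hMN u i (pMap126 hK χ hχ b F) := by
  haveI : Fact i.1.Prime := ⟨i.2.1⟩
  have h0 : perNeb126 hK χ hχ (nebTi126 hMN u χ i F)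
      = tFam hK ℂ hMN u i (perNeb126 hK χ hχ F) :=
    perG_nebForm_nebT hK χ hχ (fun h => i.2.2.1 (h.trans hMN)) (u i.1) F
  cases b
  · exact h0
  · show conjHom (perNeb126 hK χ hχ (nebTi126 hMN u χ i F))
      = tFam hK ℂ hMN u i (conjHom (perNeb126 hK χ hχ F))
    rw [h0]
    exact (tFam_comp hK hMN u i (starRingEnd ℂ).toAddMonoidHom _).symm

theorem pMap126_dEnd (hK : IsMid M K) (χ : DirichletCharacter ℂ M) (hχ : TrivOn K χ)
    (b : Bool) (d : (ZMod M)ˣ) (F : nebSub M χ) :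
    pMap126 hK χ hχ b (χ ((d : (ZMod M)ˣ) : ZMod M) • F)
      = dEnd126 hK d (pMap126 hK χ hχ b F) := by
  cases b
  · show perNeb126 hK χ hχ (χ ((d : (ZMod M)ˣ) : ZMod M) • F)
      = diamondU hK d (perNeb126 hK χ hχ F)
    rw [diamondU_perNeb126, map_smul]
  · show conjHom (perNeb126 hK χ hχ (χ ((d : (ZMod M)ˣ) : ZMod M) • F))
      = diamondU hK d (conjHom (perNeb126 hK χ hχ F))
    rw [map_smul, ← diamondU_perNeb126]
    rfl

end Pieces

/-! ## The dictionary -/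

section Dict

variable [NeZero M] [K.FiniteIndex]

/-- **DICT-K, eigenvector form over `ℂ`.** -/
theorem dictK_complex126 (hK : IsMid M K) {N' : ℕ} [NeZero N'] {u : ℕ → (ZMod M)ˣ}
    (H : EmbLin126 K N' u) (S : Set ℕ) (D : Set (ZMod M)ˣ) (lam : ℕ → ℂ)
    (chi : (ZMod M)ˣ → ℂ) (v : Additive K →+ ℂ) (hv0 : v ≠ 0) (hvpar : IsParabolicHom K v)
    (hT : ∀ i : GoodPrime N' S, tFam hK ℂ H.dvd u i v = lam i.1 • v)
    (hD : ∀ d ∈ D, diamondU hK d v = chi d • v) :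
    ∃ (χ : DirichletCharacter ℂ M) (_ : TrivOn K χ) (f : nebSub M χ) (c : ℂ →+* ℂ),
      (c = RingHom.id ℂ ∨ c = starRingEnd ℂ) ∧ f ≠ 0 ∧
      (∀ d ∈ D, χ ((d : (ZMod M)ˣ) : ZMod M) = c (chi d)) ∧
      ∀ i : GoodPrime N' S, nebTi126 H.dvd u χ i f = c (lam i.1) • f := by
  classical
  obtain ⟨f₁, f₂, hv⟩ := exists_perG_add_conj_of_isMid hK H.neg v hvpar
  obtain ⟨w₁, hw₁⟩ := exists_nebForm_sum hK f₁
  obtain ⟨w₂, hw₂⟩ := exists_nebForm_sum hK f₂
  haveI : ∀ j : {χ : DirichletCharacter ℂ M // TrivOn K χ} × Bool,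
      FiniteDimensional ℂ (nebSub M j.1.1) := fun j => H.finiteDimensional j.1.1 j.1.2
  obtain ⟨j, w', hw'0, hw'⟩ := exists_eigen_of_sum126
    (ι := GoodPrime N' S ⊕ D)
    (Sum.elim (tEnd126 hK H.dvd u) (fun d => dEnd126 hK d.1))
    (Sum.elim (fun i => lam i.1) (fun d => chi d.1))
    (J := {χ : DirichletCharacter ℂ M // TrivOn K χ} × Bool)
    (fun j => nebSub M j.1.1)
    (fun j => Sum.elim (nebTi126 H.dvd u j.1.1)
      (fun d => algebraMap ℂ (Module.End ℂ (nebSub M j.1.1)) (j.1.1 ((d.1 : (ZMod M)ˣ) : ZMod M))))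
    (by
      rintro j (i | d) (i' | d')
      · exact H.commute j.1.1 j.1.2 i i'
      · exact (Algebra.commutes _ _).symm
      · exact Algebra.commutes _ _
      · exact Algebra.commutes _ _)
    (fun j => sig126 j.2) (fun j => sig126 j.2) (fun j a => sig126_sig126 j.2 a)
    (fun j => pMap126 hK j.1.1 j.1.2 j.2)
    (fun j a w => pMap126_smul hK j.1.1 j.1.2 j.2 a w)
    (by
      rintro j (i | d) w
      · exact pMap126_tEnd hK H.dvd u j.1.1 j.1.2 j.2 i w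
      · exact pMap126_dEnd hK j.1.1 j.1.2 j.2 d.1 w)
    v hv0
    (by
      rintro (i | d)
      · exact hT i
      · exact hD d.1 d.2)
    (fun j => cond j.2 (w₂ j.1) (w₁ j.1))
    (by
      rw [Fintype.sum_prod_type]
      simp only [Fintype.sum_bool, cond_true, cond_false]
      rw [Finset.sum_add_distrib, hv, add_comm]
      congr 1
      · conv_lhs => rw [hw₂]
        rw [← perGL_apply, map_sum, ← conjAdd_apply, map_sum]
        rfl
      · conv_lhs => rw [hw₁]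
        rw [← perGL_apply, map_sum]
        rfl)
  refine ⟨j.1.1, j.1.2, w', sig126 j.2, sig126_eq j.2, hw'0, ?_, ?_⟩
  · intro d hd
    have h1 := hw' (Sum.inr ⟨d, hd⟩)
    simp only [Sum.elim_inr, Module.algebraMap_end_apply] at h1
    by_contra hne
    have h2 : (j.1.1 ((d : (ZMod M)ˣ) : ZMod M) - sig126 j.2 (chi d)) • w' = 0 :=
      (sub_smul _ _ w').trans (by rw [h1, sub_self])
    rcases smul_eq_zero.mp h2 with h3 | h3
    · exact hne (sub_eq_zero.mp h3)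
    · exact hw'0 h3
  · intro i
    exact hw' (Sum.inl i)

end Dict

end Fermat.Agent.S59.TW.H126
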