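import Fermat.Agent.S59.TW.H126.DictC
import Fermat.Agent.S48.H368.Emb

/-!
# S59 / TW, DICT-K (helper126): the Eichler–Shimura dictionary over a char-0 domain

`dictK_domain126` : the statement of `dictK_complex126` for an eigenvector
`v : Hom(K, R)`, `R` a domain of characteristic `0`: there are a subring `R₁ ⊆ R` containing the
values of `v`, `lam`, `chi`, an INJECTIVE ring homomorphism `j : R₁ → ℂ`, a character `χ`
trivial on `K` and a nonzero `f` in the nebentypus-`χ` component with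
`χ d = j (chi d)` (`d ∈ D`) and `χ(u ℓ) T_ℓ f = j (lam ℓ) • f`.
(The possible complex conjugation of `dictK_complex126` is absorbed into `j`.)

`dictK_domain_rev126` : the same with the embedding in the other direction: a subring
`R₀ ⊆ ℂ`, `L : R₀ →+* R` injective, `lamC : ℕ → ℂ`, `chiC` with `L (lamC ℓ) = lam ℓ`,
`L (chiC d) = chi d`.
-/

set_option autoImplicit false
set_option linter.unusedSectionVars false
set_option linter.unusedVariables false
set_option linter.style.haveILetI false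

noncomputable section

namespace Fermat.Agent.S59.TW.H126

open CongruenceSubgroup ModularForm ModularCurve ModularCurve.Period
open UpperHalfPlane hiding I
open Matrix.SpecialLinearGroup Fermat.Agent.Lib.Newform.H803
open Fermat.Agent.S41.H761 Fermat.Agent.S29.H642
open Fermat.Agent.S59.TW.H653 Fermat.Agent.S59.TW.H564 Fermat.Agent.S59.TW.H658
open scoped Manifold MatrixGroups ModularForm
open Cardinal

variable {M : ℕ} {K : Subgroup SL(2, ℤ)}

theorem countable_additive126 (K : Subgroup SL(2, ℤ)) : Countable (Additive K) :=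
  Function.Injective.countable (β := Fin 2 → Fin 2 → ℤ)
    (f := fun γ : Additive K => fun i j => ((Additive.toMul γ : K) : SL(2, ℤ)) i j)
    (fun γ γ' h => by
      have h1 : (Additive.toMul γ : K) = Additive.toMul γ' :=
        Subtype.ext (Subtype.ext (Matrix.ext fun i j => congrFun (congrFun h i) j))
      exact Additive.toMul.injective h1)

/-- A countable subset of a char-0 domain lies in a subring which embeds into `ℂ`. -/
theorem exists_subring_embedding126 {R : Type} [CommRing R] [IsDomain R] [CharZero R]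
    (s : Set R) (hs : s.Countable) :
    ∃ (R₁ : Subring R) (j : R₁ →+* ℂ), s ⊆ R₁ ∧ Function.Injective j := by
  classical
  let F := FractionRing R
  let K₀ : Subfield F := Subfield.closure (algebraMap R F '' s)
  have hK₀ : #K₀ ≤ 𝔠 := by
    have h1 : #K₀ ≤ max #(algebraMap R F '' s : Set F) ℵ₀ :=
      Subfield.cardinalMk_closure_le_max _
    have h2 : #(algebraMap R F '' s : Set F) ≤ ℵ₀ := (hs.image _).le_aleph0
    exact (h1.trans (max_le h2 le_rfl)).trans aleph0_le_continuum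
  haveI : CharZero F := charZero_of_injective_algebraMap (IsFractionRing.injective R F)
  have : FaithfulSMul ℤ K₀ :=
    (faithfulSMul_iff_algebraMap_injective ℤ K₀).mpr (by
      intro m n hmn
      have : ((m : K₀) : F) = ((n : K₀) : F) := congrArg _ hmn
      exact_mod_cast this)
  have : FaithfulSMul ℤ ℂ :=
    (faithfulSMul_iff_algebraMap_injective ℤ ℂ).mpr (by
      intro m n hmn
      exact_mod_cast hmn)
  obtain ⟨ι'⟩ := Fermat.Agent.S48.H368.nonempty_algHom_complex (O := ℤ) (E := K₀) hK₀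
  let ι : K₀ →+* ℂ := ι'.toRingHom
  have hι : Function.Injective ι := ι.injective
  let R₁ : Subring R := K₀.toSubring.comap (algebraMap R F)
  let g : R₁ →+* K₀ := ((algebraMap R F).comp R₁.subtype).codRestrict K₀.toSubring
    (fun x => x.2)
  have hg : Function.Injective g := by
    intro x y hxy
    apply Subtype.ext
    apply IsFractionRing.injective R F
    exact congrArg (fun z : K₀ => (z : F)) hxy
  refine ⟨R₁, ι.comp g, ?_, hι.comp hg⟩
  intro x hx
  show algebraMap R F x ∈ K₀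
  exact Subfield.subset_closure ⟨x, hx, rfl⟩

/-- The inverse of an injective `j : R₁ → ℂ` on its range. -/
theorem exists_rev126 {R : Type} [CommRing R] (R₁ : Subring R) (j : R₁ →+* ℂ)
    (hj : Function.Injective j) :
    ∃ (R₀ : Subring ℂ) (L : R₀ →+* R), Function.Injective L ∧
      ∀ x : R₁, ∃ h : j x ∈ R₀, L ⟨j x, h⟩ = x := by
  let e : R₁ ≃+* j.range := RingEquiv.ofBijective j.rangeRestrict
    ⟨fun x y hxy => hj (congrArg Subtype.val hxy), j.rangeRestrict_surjective⟩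
  refine ⟨j.range, R₁.subtype.comp (e.symm : j.range →+* R₁),
    Subtype.val_injective.comp e.symm.injective, fun x => ⟨⟨x, rfl⟩, ?_⟩⟩
  have h1 : (⟨j x, ⟨x, rfl⟩⟩ : j.range) = e x := rfl
  show ((e.symm ⟨j x, ⟨x, rfl⟩⟩ : R₁) : R) = x
  rw [h1, RingEquiv.symm_apply_apply]

/-- **Transport to `ℂ`.**  An eigenvector in `Hom(K, R)`, `R` a char-0 domain, gives an
eigenvector in `Hom(K, ℂ)` through an injective `j : R₁ → ℂ`, `R₁ ⊆ R` a subring containing
the eigenvalues. -/
theorem exists_complex_of_domain126 (hK : IsMid M K) {N' : ℕ} (hMN : M ∣ N')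
    (u : ℕ → (ZMod M)ˣ) (S : Set ℕ) (D : Set (ZMod M)ˣ)
    {R : Type} [CommRing R] [IsDomain R] [CharZero R]
    (lam : ℕ → R) (chi : (ZMod M)ˣ → R) (v : Additive K →+ R) (hv0 : v ≠ 0)
    (hvpar : IsParabolicHom K v)
    (hT : ∀ (i : GoodPrime N' S) (γ : Additive K), tFam hK R hMN u i v γ = lam i.1 * v γ)
    (hD : ∀ d ∈ D, ∀ γ : Additive K, diamondU hK d v γ = chi d * v γ) :
    ∃ (R₁ : Subring R) (hlam : ∀ n, lam n ∈ R₁) (hchi : ∀ d, chi d ∈ R₁) (j : R₁ →+* ℂ)
      (vC : Additive K →+ ℂ), Function.Injective j ∧ vC ≠ 0 ∧ IsParabolicHom K vC ∧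
      (∀ i : GoodPrime N' S, tFam hK ℂ hMN u i vC = j ⟨lam i.1, hlam i.1⟩ • vC) ∧
      (∀ d ∈ D, diamondU hK d vC = j ⟨chi d, hchi d⟩ • vC) := by
  classical
  haveI := countable_additive126 K
  have hcount : (Set.range v ∪ Set.range lam ∪ Set.range chi).Countable := by
    refine ((Set.countable_range _).union (Set.countable_range _)).union ?_
    by_cases hM : M = 0
    · subst hM
      haveI : Countable (ZMod 0)ˣ :=
        Function.Injective.countable (β := ℤ) (f := fun x : (ZMod 0)ˣ => (x : ZMod 0))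
          Units.val_injective
      exact Set.countable_range _
    · haveI : NeZero M := ⟨hM⟩
      exact Set.countable_range _
  obtain ⟨R₁, j, hsub, hj⟩ := exists_subring_embedding126
    (Set.range v ∪ Set.range lam ∪ Set.range chi) hcount
  have hvm : ∀ γ, v γ ∈ R₁ := fun γ => hsub (Or.inl (Or.inl ⟨γ, rfl⟩))
  have hlam : ∀ n, lam n ∈ R₁ := fun n => hsub (Or.inl (Or.inr ⟨n, rfl⟩))
  have hchi : ∀ d, chi d ∈ R₁ := fun d => hsub (Or.inr ⟨d, rfl⟩)
  let v₀ : Additive K →+ R₁ := v.codRestrict R₁.toAddSubgroup hvm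
  have ev : (R₁.subtype : R₁ →+ R).comp v₀ = v := AddMonoidHom.ext fun γ => rfl
  -- the equations over `R₁`
  have hT₀ : ∀ (i : GoodPrime N' S) (γ : Additive K),
      tFam hK R₁ hMN u i v₀ γ = ⟨lam i.1, hlam i.1⟩ * v₀ γ := by
    intro i γ
    apply Subtype.ext
    have h1 := tFam_comp hK hMN u i (R₁.subtype : R₁ →+ R) v₀
    rw [ev] at h1
    have h2 := DFunLike.congr_fun h1 γ
    rw [hT i γ] at h2
    exact h2.symm
  have hD₀ : ∀ d ∈ D, ∀ γ : Additive K,
      diamondU hK d v₀ γ = ⟨chi d, hchi d⟩ * v₀ γ := by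
    intro d hd γ
    apply Subtype.ext
    have h1 := diamondU_comp hK d (R₁.subtype : R₁ →+ R) v₀
    rw [ev] at h1
    have h2 := DFunLike.congr_fun h1 γ
    rw [hD d hd γ] at h2
    exact h2.symm
  -- the complex class
  refine ⟨R₁, hlam, hchi, j, (j : R₁ →+ ℂ).comp v₀, hj, ?_, ?_, ?_, ?_⟩
  · intro h0
    apply hv0
    refine AddMonoidHom.ext fun γ => ?_
    have h1 : j (v₀ γ) = 0 := DFunLike.congr_fun h0 γ
    have h2 : v₀ γ = 0 := hj (by rw [map_zero]; exact h1)
    exact congrArg Subtype.val h2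
  · intro γ hγ
    have h1 : v₀ (Additive.ofMul γ) = 0 := Subtype.ext (hvpar γ hγ)
    show j (v₀ (Additive.ofMul γ)) = 0
    rw [h1, map_zero]
  · intro i
    rw [tFam_comp hK hMN u i (j : R₁ →+ ℂ) v₀]
    refine AddMonoidHom.ext fun γ => ?_
    show j (tFam hK R₁ hMN u i v₀ γ) = j ⟨lam i.1, hlam i.1⟩ * j (v₀ γ)
    rw [hT₀ i γ, map_mul]
  · intro d hd
    rw [diamondU_comp hK d (j : R₁ →+ ℂ) v₀]
    refine AddMonoidHom.ext fun γ => ?_
    show j (diamondU hK d v₀ γ) = j ⟨chi d, hchi d⟩ * j (v₀ γ)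
    rw [hD₀ d hd γ, map_mul]

section Dict

variable [NeZero M] [K.FiniteIndex]

/-- **DICT-K over a char-0 domain.** -/
theorem dictK_domain126 (hK : IsMid M K) {N' : ℕ} [NeZero N'] {u : ℕ → (ZMod M)ˣ}
    (H : EmbLin126 K N' u) (S : Set ℕ) (D : Set (ZMod M)ˣ)
    {R : Type} [CommRing R] [IsDomain R] [CharZero R]
    (lam : ℕ → R) (chi : (ZMod M)ˣ → R) (v : Additive K →+ R) (hv0 : v ≠ 0)
    (hvpar : IsParabolicHom K v)
    (hT : ∀ (i : GoodPrime N' S) (γ : Additive K), tFam hK R H.dvd u i v γ = lam i.1 * v γ)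
    (hD : ∀ d ∈ D, ∀ γ : Additive K, diamondU hK d v γ = chi d * v γ) :
    ∃ (R₁ : Subring R) (hlam : ∀ n, lam n ∈ R₁) (hchi : ∀ d, chi d ∈ R₁) (j : R₁ →+* ℂ),
      Function.Injective j ∧
      ∃ (χ : DirichletCharacter ℂ M) (_ : TrivOn K χ) (f : nebSub M χ), f ≠ 0 ∧
        (∀ d ∈ D, χ ((d : (ZMod M)ˣ) : ZMod M) = j ⟨chi d, hchi d⟩) ∧
        ∀ i : GoodPrime N' S, nebTi126 H.dvd u χ i f = j ⟨lam i.1, hlam i.1⟩ • f := by
  obtain ⟨R₁, hlam, hchi, j, vC, hj, hvC0, hvCpar, hTC, hDC⟩ :=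
    exists_complex_of_domain126 hK H.dvd u S D lam chi v hv0 hvpar hT hD
  obtain ⟨χ, hχ, f, c, hc, hf0, hχD, hfT⟩ := dictK_complex126 hK H S D
    (fun n => j ⟨lam n, hlam n⟩) (fun d => j ⟨chi d, hchi d⟩) vC hvC0 hvCpar hTC hDC
  have hcinj : Function.Injective c := c.injective
  exact ⟨R₁, hlam, hchi, c.comp j, hcinj.comp hj, χ, hχ, f, hf0, hχD, hfT⟩

/-- **DICT-K over a char-0 domain**, the embedding in the other direction. -/
theorem dictK_domain_rev126 (hK : IsMid M K) {N' : ℕ} [NeZero N'] {u : ℕ → (ZMod M)ˣ}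
    (H : EmbLin126 K N' u) (S : Set ℕ) (D : Set (ZMod M)ˣ)
    {R : Type} [CommRing R] [IsDomain R] [CharZero R]
    (lam : ℕ → R) (chi : (ZMod M)ˣ → R) (v : Additive K →+ R) (hv0 : v ≠ 0)
    (hvpar : IsParabolicHom K v)
    (hT : ∀ (i : GoodPrime N' S) (γ : Additive K), tFam hK R H.dvd u i v γ = lam i.1 * v γ)
    (hD : ∀ d ∈ D, ∀ γ : Additive K, diamondU hK d v γ = chi d * v γ) :
    ∃ (R₀ : Subring ℂ) (L : R₀ →+* R) (lamC : ℕ → ℂ) (chiC : (ZMod M)ˣ → ℂ)
      (hlam : ∀ n, lamC n ∈ R₀) (hchi : ∀ d, chiC d ∈ R₀),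
      Function.Injective L ∧ (∀ n, L ⟨lamC n, hlam n⟩ = lam n) ∧
      (∀ d, L ⟨chiC d, hchi d⟩ = chi d) ∧
      ∃ (χ : DirichletCharacter ℂ M) (_ : TrivOn K χ) (f : nebSub M χ), f ≠ 0 ∧
        (∀ d ∈ D, χ ((d : (ZMod M)ˣ) : ZMod M) = chiC d) ∧
        ∀ i : GoodPrime N' S, nebTi126 H.dvd u χ i f = lamC i.1 • f := by
  obtain ⟨R₁, hlam, hchi, j, hj, χ, hχ, f, hf0, hχD, hfT⟩ :=
    dictK_domain126 hK H S D lam chi v hv0 hvpar hT hD
  obtain ⟨R₀, L, hL, hLj⟩ := exists_rev126 R₁ j hj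
  exact ⟨R₀, L, fun n => j ⟨lam n, hlam n⟩, fun d => j ⟨chi d, hchi d⟩,
    fun n => (hLj ⟨lam n, hlam n⟩).1, fun d => (hLj ⟨chi d, hchi d⟩).1, hL,
    fun n => (hLj ⟨lam n, hlam n⟩).2, fun d => (hLj ⟨chi d, hchi d⟩).2,
    χ, hχ, f, hf0, hχD, hfT⟩

end Dict

end Fermat.Agent.S59.TW.H126
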