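import Fermat.Agent.S59.TW.H126.DictDom
import Fermat.Agent.S59.TW.H658.EmbH
import Fermat.Agent.S59.TW.H54.TwistLNS

/-!
# S59 / TW, DICT-K (helper126): the twist datum in the Taylor–Wiles shape, and DICT-R (core)

* `TwistHypQ126 K N' u Qs` : `H658.TwistHyp` together with "the twist primes lie in `Qs`";
* `twistHypQ_of_odd126` : the Taylor–Wiles shape of `H658.embHyp_of_odd` (`Qs` distinct primes
  `q ∥ M`, `K ⊇ Γ₀(M) ∩ Γ₁(∏ Qs)`, `γ^(2m+1) ∈ K` for `γ ∈ Γ₀(M)`, `M · ∏ Qs ∣ N'`) gives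
  `TwistHypQ126 K N' (fun ℓ => uCls M ℓ ^ m) Qs` (from helper564's `exists_psi`);
* `TwistDatum.mem_L126` : a prime `q₀` is a twist prime of `D : TwistDatum M N' χ` as soon as
  `χ d₀ ≠ 1` for a unit `d₀` which is `≡ 1` modulo the other twist primes;
* `dictR_complex126`, `dictR_domain126` : **DICT-R, automorphic core.**  An eigenvector `v ≠ 0`
  in the parabolic part of `Hom(K, R)` (`R` a char-0 domain) of the `t_ℓ = ⟨u ℓ⟩ T_ℓ`
  (eigenvalues `lam ℓ`) on which a diamond operator `⟨d₀⟩` at the pivot `q₀` (`d₀ ≡ 1` modulo the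
  other primes of `Qs`) acts by a scalar `ζ ≠ 1`, with `q₀² ∥ N'`: there are a subring
  `R₀ ⊆ ℂ`, `L : R₀ →+* R` injective, `lamC` with `L (lamC ℓ) = lam ℓ` and a NEWFORM `g` of
  level `M₁ ∣ N'`, `v_{q₀}(M₁) = 2`, `a_ℓ(g) = lamC ℓ` (`ℓ ∤ N'`, `ℓ ∉ S`)
  (helper54's `twistL_anemic_exists_newform`).
-/

set_option autoImplicit false
set_option linter.unusedSectionVars false
set_option linter.unusedVariables false
set_option linter.style.haveILetI false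

noncomputable section

namespace Fermat.Agent.S59.TW.H126

open CongruenceSubgroup ModularForm ModularCurve ModularCurve.Period
open UpperHalfPlane hiding I
open Matrix.SpecialLinearGroup Fermat.Agent.Lib.Newform.H803
open Fermat.Agent.S41.H761 Fermat.Agent.S29.H642
open Fermat.Agent.S59.TW.H653 Fermat.Agent.S59.TW.H658
open Fermat.Agent.S59.TW.H564 (psiL chiL chiL_apply twistL)
open scoped Manifold MatrixGroups ModularForm

variable {M : ℕ} {K : Subgroup SL(2, ℤ)}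

/-- `H658.TwistHyp` with the twist primes in the list `Qs`. -/
structure TwistHypQ126 (K : Subgroup SL(2, ℤ)) (N' : ℕ) (u : ℕ → (ZMod M)ˣ) (Qs : List ℕ) :
    Prop where
  dvd : M ∣ N'
  neg : (-1 : SL(2, ℤ)) ∈ K
  twist : ∀ χ : DirichletCharacter ℂ M, TrivOn K χ → ∃ D : TwistDatum M N' χ,
    (∀ q ∈ D.L, q ∈ Qs) ∧
    ∀ ℓ : ℕ, ℓ.Prime → ¬ ℓ ∣ N' → psiL D.ψ D.L ℓ = χ ((u ℓ : (ZMod M)ˣ) : ZMod M)

theorem TwistHypQ126.twistHyp {N' : ℕ} {u : ℕ → (ZMod M)ˣ} {Qs : List ℕ}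
    (H : TwistHypQ126 K N' u Qs) : TwistHyp K N' u where
  dvd := H.dvd
  neg := H.neg
  twist := fun χ hχ => by
    obtain ⟨D, -, hD⟩ := H.twist χ hχ
    exact ⟨D, hD⟩

theorem TwistHypQ126.embLin {N' : ℕ} {u : ℕ → (ZMod M)ˣ} {Qs : List ℕ}
    (H : TwistHypQ126 K N' u Qs) : EmbLin126 K N' u := H.twistHyp.embLin126

theorem isUnit_intCast_of_isCoprime126 {N' : ℕ} (hMN : M ∣ N') {d : ℤ}
    (hd : IsCoprime d (N' : ℤ)) : IsUnit ((d : ℤ) : ZMod M) := by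
  obtain ⟨a, b, hab⟩ := hd
  obtain ⟨c, rfl⟩ := hMN
  refine IsUnit.of_mul_eq_one ((a : ℤ) : ZMod M) ?_
  have h1 := congrArg (fun z : ℤ => (z : ZMod M)) hab
  simp only [Int.cast_add, Int.cast_mul, Int.cast_natCast, Nat.cast_mul, ZMod.natCast_self,
    zero_mul, mul_zero, add_zero, Int.cast_one] at h1
  rw [mul_comm]
  exact h1

variable [NeZero M] [K.FiniteIndex]

/-- **The twist hypothesis in the Taylor–Wiles shape.** -/
theorem twistHypQ_of_odd126 (hK : IsMid M K) (Qs : List ℕ) (hnd : Qs.Nodup)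
    (hQs : ∀ q ∈ Qs, q.Prime ∧ ∃ M' : ℕ, M = M' * q ∧ Nat.Coprime M' q)
    (hK1 : ∀ γ ∈ Gamma0 M, ((Qs.prod : ℕ) : ℤ) ∣ γ 1 1 - 1 → γ ∈ K)
    (m : ℕ) (hK2 : ∀ γ ∈ Gamma0 M, γ ^ (2 * m + 1) ∈ K)
    {N' : ℕ} (hN' : M * Qs.prod ∣ N') :
    TwistHypQ126 K N' (fun ℓ => uCls M ℓ ^ m) Qs where
  dvd := (Dvd.intro _ rfl).trans hN'
  neg := by
    have h1 : (-1 : SL(2, ℤ)) ∈ Gamma0 M := by
      rw [Gamma0_mem]
      simp
    have h2 := hK2 _ h1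
    rwa [Odd.neg_one_pow ⟨m, rfl⟩] at h2
  twist := fun χ hχ => by
    have hMN : M ∣ N' := (Dvd.intro _ rfl).trans hN'
    have hQM : ((Qs.prod : ℕ) : ℤ) ∣ (M : ℤ) :=
      Fermat.Agent.S59.TW.H564.list_prod_dvd_of_primes Qs hnd (fun q hq => (hQs q hq).1) _ (fun q hq => by
        obtain ⟨-, M', hM, -⟩ := hQs q hq
        exact Int.natCast_dvd_natCast.mpr ⟨M', by rw [hM, mul_comm]⟩)
    have hε : ∀ d : ℤ, ((Qs.prod : ℕ) : ℤ) ∣ d - 1 → IsUnit ((d : ℤ) : ZMod M) →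
        χ ((d : ℤ) : ZMod M) = 1 := by
      intro d hd hu
      obtain ⟨v, hv⟩ := hu
      obtain ⟨g, hg⟩ := dUnit_surjective (M := M) v
      have h1 : ((((g : SL(2, ℤ)) 1 1 : ℤ)) : ZMod M) = ((d : ℤ) : ZMod M) := by
        rw [← coe_dUnit, hg, hv]
      have h2 : (M : ℤ) ∣ (g : SL(2, ℤ)) 1 1 - d := by
        rw [← ZMod.intCast_zmod_eq_zero_iff_dvd]
        push_cast
        rw [h1, sub_self]
      have h3 : ((Qs.prod : ℕ) : ℤ) ∣ (g : SL(2, ℤ)) 1 1 - 1 := by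
        have := dvd_add (hQM.trans h2) hd
        rwa [sub_add_sub_cancel] at this
      have h4 := hχ g (hK1 _ g.2 h3)
      rw [hg, hv] at h4
      exact h4
    have hm : χ ^ (2 * m + 1) = 1 := by
      ext v
      rw [MulChar.pow_apply_coe, MulChar.one_apply_coe, ← map_pow, ← Units.val_pow_eq_pow_val]
      obtain ⟨g, rfl⟩ := dUnit_surjective (M := M) v
      rw [← map_pow]
      exact hχ (g ^ (2 * m + 1)) (hK2 _ g.2)
    obtain ⟨L, ψ, hLnd, hLQ, hLprod, hψ, hram, hc, hd⟩ := Fermat.Agent.S59.TW.H564.exists_psi χ Qs hnd hQs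
      (Fermat.Agent.S59.TW.H564.periodic_of_trivial Qs hnd (fun q hq => (hQs q hq).1) χ hε) m hm
    refine ⟨{ ψ := ψ, L := L, nodup := hLnd, prime := fun q hq => hQs q (hLQ q hq),
              ψ_ne := hψ, ram := hram,
              dvd := (Nat.mul_dvd_mul_left M hLprod).trans hN',
              triv := fun d hd' => ?_ }, hLQ, ?_⟩
    · rw [chiL_apply]
      exact hc d (isUnit_intCast_of_isCoprime126 hMN hd')
    · intro ℓ hℓ hℓN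
      have hcop : Nat.Coprime ℓ M :=
        (Nat.Prime.coprime_iff_not_dvd hℓ).mpr (fun h => hℓN (h.trans hMN))
      have hunit : IsUnit (((ℓ : ℕ) : ℤ) : ZMod M) := by
        rw [Int.cast_natCast, ZMod.isUnit_iff_coprime]
        exact hcop
      have h1 := hd (ℓ : ℤ) hunit
      simp only [Int.cast_natCast] at h1
      show psiL ψ L ℓ = _
      rw [psiL, h1, Units.val_pow_eq_pow_val, map_pow, coe_uCls hcop]

/-- **The pivot is a twist prime.**  If `χ d₀ ≠ 1` for a unit `d₀` which is `≡ 1` modulo the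
twist primes `q ≠ q₀`, then `q₀` is a twist prime. -/
theorem mem_L126 {N' : ℕ} [NeZero N'] {χ : DirichletCharacter ℂ M} (D : TwistDatum M N' χ)
    (hMN : M ∣ N') (q₀ : ℕ) (d₀ : (ZMod M)ˣ)
    (hd₀ : ∀ q ∈ D.L, q ≠ q₀ → ∀ h : q ∣ M, ZMod.unitsMap h d₀ = 1)
    (hχ : χ ((d₀ : (ZMod M)ˣ) : ZMod M) ≠ 1) : q₀ ∈ D.L := by
  by_contra hq
  obtain ⟨e, he⟩ := ZMod.unitsMap_surjective hMN d₀
  have hz : ((((e : ZMod N').val : ℕ) : ℤ) : ZMod N') = (e : ZMod N') := by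
    rw [Int.cast_natCast, ZMod.natCast_zmod_val]
  have hcop : IsCoprime (((e : ZMod N').val : ℕ) : ℤ) (N' : ℤ) :=
    Nat.isCoprime_iff_coprime.mpr (ZMod.val_coe_unit_coprime e)
  have hzM : ((((e : ZMod N').val : ℕ) : ℤ) : ZMod M) = (d₀ : ZMod M) := by
    have h0 : ((d₀ : (ZMod M)ˣ) : ZMod M) = ((e : ZMod N').cast : ZMod M) := by
      rw [← he]
      rfl
    rw [h0]
    conv_rhs => rw [← hz]
    exact (ZMod.cast_intCast hMN _).symm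
  have h1 := D.triv _ hcop
  rw [chiL_apply] at h1
  have h2 : (D.L.map fun q =>
      D.ψ q (((((e : ZMod N').val : ℕ) : ℤ) : ℤ) : ZMod q) ^ 2).prod = 1 := by
    apply List.prod_eq_one
    intro x hx
    obtain ⟨q, hqL, rfl⟩ := List.mem_map.mp hx
    have hqM : q ∣ M := (D.hL q hqL).2
    have hne : q ≠ q₀ := fun h => hq (h ▸ hqL)
    have h3 := congrArg (fun w : (ZMod q)ˣ => (w : ZMod q)) (hd₀ q hqL hne hqM)
    simp only [ZMod.unitsMap_val, Units.val_one] at h3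
    have h4 : ((((e : ZMod N').val : ℕ) : ℤ) : ZMod q) = 1 := by
      rw [← h3, ← hzM, ZMod.cast_intCast hqM]
    rw [h4, map_one, one_pow]
  rw [h2, mul_one, chiZ_apply, hzM] at h1
  exact hχ h1

/-- **DICT-R, automorphic core, over `ℂ`.** -/
theorem dictR_complex126 (hK : IsMid M K) {N' : ℕ} [NeZero N'] {u : ℕ → (ZMod M)ˣ}
    {Qs : List ℕ} (H : TwistHypQ126 K N' u Qs) (S : Set ℕ) (lam : ℕ → ℂ)
    (v : Additive K →+ ℂ) (hv0 : v ≠ 0) (hvpar : IsParabolicHom K v)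
    (hT : ∀ i : GoodPrime N' S, tFam hK ℂ H.dvd u i v = lam i.1 • v)
    (q₀ : ℕ) (hq₀ : N'.factorization q₀ = 2)
    (d₀ : (ZMod M)ˣ) (hd₀ : ∀ q ∈ Qs, q ≠ q₀ → ∀ h : q ∣ M, ZMod.unitsMap h d₀ = 1)
    (ζ : ℂ) (hζ : ζ ≠ 1) (hD : diamondU hK d₀ v = ζ • v) :
    ∃ c : ℂ →+* ℂ, (c = RingHom.id ℂ ∨ c = starRingEnd ℂ) ∧
      ∃ (M₁ : ℕ) (_ : NeZero M₁) (g : CuspForm (Gamma0 M₁) 2), g.IsNewform ∧ M₁ ∣ N' ∧
        M₁.factorization q₀ = 2 ∧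
        ∀ ℓ : ℕ, ℓ.Prime → ¬ ℓ ∣ N' → ℓ ∉ S → ModularFormClass.qCoeff g ℓ = c (lam ℓ) := by
  obtain ⟨χ, hχ, f, c, hc, hf0, hχD, hfT⟩ := dictK_complex126 hK H.embLin S {d₀} lam
    (fun _ => ζ) v hv0 hvpar hT (fun d hd => by rw [Set.mem_singleton_iff.mp hd]; exact hD)
  obtain ⟨D, hDL, hDψ⟩ := H.twist χ hχ
  have hχd : χ ((d₀ : (ZMod M)ˣ) : ZMod M) ≠ 1 := by
    rw [hχD d₀ rfl]
    intro h1
    exact hζ (c.injective (h1.trans (map_one c).symm))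
  have hq₀L : q₀ ∈ D.L := mem_L126 D H.dvd q₀ d₀ (fun q hq => hd₀ q (hDL q hq)) hχd
  have hF0 : nebTwist D f ≠ 0 := fun h0 =>
    hf0 (nebTwist_injective D (h0.trans (map_zero _).symm))
  have heig : ∀ (ℓ : ℕ) (hℓ : ℓ.Prime) (hℓN : ¬ ℓ ∣ N'), ℓ ∉ S →
      CuspForm.heckeTLin 2 hℓ hℓN (nebTwist D f) = c (lam ℓ) • nebTwist D f := by
    intro ℓ hℓ hℓN hℓS
    haveI : Fact ℓ.Prime := ⟨hℓ⟩
    have hℓM : ¬ ℓ ∣ M := fun h => hℓN (h.trans H.dvd)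
    have h1 := heckeTLin_nebTwist D hℓN hℓM f
    rw [hDψ ℓ hℓ hℓN] at h1
    have h2 : nebT χ hℓM (χ ((u ℓ : (ZMod M)ˣ) : ZMod M)) f = c (lam ℓ) • f :=
      hfT ⟨ℓ, hℓ, hℓN, hℓS⟩
    rw [h2] at h1
    exact h1.trans ((nebTwistL126 D).map_smul (c (lam ℓ)) f)
  exact ⟨c, hc, Fermat.Agent.S59.TW.H54.twistL_anemic_exists_newform D.ψ D.L D.prime
    (isCharMod_chiZ χ) D.dvd D.triv f.2.2 hq₀L (D.ψ_ne q₀ hq₀L) hq₀ (nebTwist D f)
    (coe_nebTwist D f) hF0 S (fun ℓ => c (lam ℓ)) heig⟩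

/-- **DICT-R, automorphic core, over a char-0 domain.** -/
theorem dictR_domain126 (hK : IsMid M K) {N' : ℕ} [NeZero N'] {u : ℕ → (ZMod M)ˣ}
    {Qs : List ℕ} (H : TwistHypQ126 K N' u Qs) (S : Set ℕ)
    {R : Type} [CommRing R] [IsDomain R] [CharZero R]
    (lam : ℕ → R) (v : Additive K →+ R) (hv0 : v ≠ 0) (hvpar : IsParabolicHom K v)
    (hT : ∀ (i : GoodPrime N' S) (γ : Additive K), tFam hK R H.dvd u i v γ = lam i.1 * v γ)
    (q₀ : ℕ) (hq₀ : N'.factorization q₀ = 2)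
    (d₀ : (ZMod M)ˣ) (hd₀ : ∀ q ∈ Qs, q ≠ q₀ → ∀ h : q ∣ M, ZMod.unitsMap h d₀ = 1)
    (ζ : R) (hζ : ζ ≠ 1) (hD : ∀ γ : Additive K, diamondU hK d₀ v γ = ζ * v γ) :
    ∃ (R₀ : Subring ℂ) (L : R₀ →+* R) (lamC : ℕ → ℂ) (hlam : ∀ n, lamC n ∈ R₀),
      Function.Injective L ∧ (∀ n, L ⟨lamC n, hlam n⟩ = lam n) ∧
      ∃ (M₁ : ℕ) (_ : NeZero M₁) (g : CuspForm (Gamma0 M₁) 2), g.IsNewform ∧ M₁ ∣ N' ∧
        M₁.factorization q₀ = 2 ∧
        ∀ ℓ : ℕ, ℓ.Prime → ¬ ℓ ∣ N' → ℓ ∉ S → ModularFormClass.qCoeff g ℓ = lamC ℓ := by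
  obtain ⟨R₁, hlam, hchi, j, vC, hj, hvC0, hvCpar, hTC, hDC⟩ :=
    exists_complex_of_domain126 hK H.dvd u S {d₀} lam (fun _ => ζ) v hv0 hvpar hT
      (fun d hd γ => by rw [Set.mem_singleton_iff.mp hd]; exact hD γ)
  have hjζ : j ⟨ζ, hchi d₀⟩ ≠ 1 := by
    intro h1
    apply hζ
    have h2 : (⟨ζ, hchi d₀⟩ : R₁) = 1 := hj (h1.trans (map_one j).symm)
    exact congrArg Subtype.val h2
  obtain ⟨c, hc, M₁, hM₁, g, hg, hdvd, hfac, hcoef⟩ := dictR_complex126 hK H S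
    (fun n => j ⟨lam n, hlam n⟩) vC hvC0 hvCpar hTC q₀ hq₀ d₀ hd₀ (j ⟨ζ, hchi d₀⟩) hjζ
    (hDC d₀ rfl)
  obtain ⟨R₀, L, hL, hLj⟩ := exists_rev126 R₁ (c.comp j) (c.injective.comp hj)
  exact ⟨R₀, L, fun n => c (j ⟨lam n, hlam n⟩), fun n => (hLj ⟨lam n, hlam n⟩).1, hL,
    fun n => (hLj ⟨lam n, hlam n⟩).2, M₁, hM₁, g, hg, hdvd, hfac, hcoef⟩

end Fermat.Agent.S59.TW.H126
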